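import Fermat.Agent.S17.WMW.Defs

/-!
# S17/WMW leaf W1: halves of `G_L`-fixed points are fixed by `G_M`

`J` an abelian group with an action of `GQ`.  `M` as in KUM (hypothesis `hM`).

Proof.  Let `x = 2 • y` be fixed by `G_L`; `κ σ := σ • y - y` (`σ ∈ G_L`) satisfies `2 • κ σ = 0` and
`κ (σ τ) = κ σ + κ τ` (because `G_L` fixes the `2`-torsion).  Suppose `σ₀ ∈ G_M`, `t := κ σ₀ ≠ 0`.  The `2`-torsion
subgroup is a `ZMod 2`-vector space (`AddCommGroup.zmodModule`), so there is an additive `χ : J[2] → ZMod 2` with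
`χ t ≠ 0` (`Module.forall_dual_apply_eq_zero_iff`).  `H := {σ ∈ G_L | χ (κ σ) = 0}` is a subgroup with `IsUnrQuad L S H`:
`quad` since `1 + 1 = 0` in `ZMod 2`; `isOpen`: if `M'` fixes `y` then `(L ⊔ M').fixingSubgroup ≤ H`; `unr` by `hunr`.  So `σ₀ ∈ H`: contradiction.
-/

set_option autoImplicit false

namespace Fermat.Agent.S17.WMW

variable {J : Type*} [AddCommGroup J] [DistribMulAction GQ J]

theorem smul_half_eq
    (hstab : ∀ y : J, ∃ M : IntermediateField ℚ Kb, FiniteDimensional ℚ M ∧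
      ∀ σ ∈ M.fixingSubgroup, σ • y = y)
    (S : Finset ℕ)
    (hunr : ∀ σ : GQ, IsInertiaOutside S σ → ∀ y : J, σ • (2 • y) = 2 • y → σ • y = y)
    (L : IntermediateField ℚ Kb) [FiniteDimensional ℚ L]
    (hL : ∀ y : J, 2 • y = 0 → ∀ σ ∈ L.fixingSubgroup, σ • y = y)
    (M : IntermediateField ℚ Kb)
    (hM : ∀ H : Subgroup GQ, IsUnrQuad L S H → M.fixingSubgroup ≤ H)
    (y : J) (hy : ∀ σ ∈ L.fixingSubgroup, σ • (2 • y) = 2 • y) :
    ∀ σ ∈ M.fixingSubgroup, σ • y = y := by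
  classical
  intro σ₀ hσ₀
  by_contra hne
  have hGL : IsUnrQuad L S L.fixingSubgroup :=
    ⟨le_rfl, fun σ hσ τ hτ _ _ => mul_mem hσ hτ, ⟨L, inferInstance, le_rfl⟩, fun σ hσ _ => hσ⟩
  have hσ₀L : σ₀ ∈ L.fixingSubgroup := hM _ hGL hσ₀
  let T : AddSubgroup J := (nsmulAddMonoidHom (α := J) 2).ker
  have hmemT : ∀ t : J, t ∈ T ↔ 2 • t = 0 := fun t => Iff.rfl
  let κ : GQ → J := fun σ => σ • y - y
  have hκ1 : κ 1 = 0 := by
    show (1 : GQ) • y - y = 0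
    rw [one_smul, sub_self]
  have hκT : ∀ σ ∈ L.fixingSubgroup, κ σ ∈ T := by
    intro σ hσ
    rw [hmemT]
    show 2 • (σ • y - y) = 0
    have h1 := hy σ hσ
    rw [two_nsmul, smul_add] at h1
    rw [two_nsmul]
    have h2 : σ • y - y + (σ • y - y) = (σ • y + σ • y) - (y + y) := by abel
    rw [h2, h1, sub_self]
  have hκadd : ∀ σ ∈ L.fixingSubgroup, ∀ τ ∈ L.fixingSubgroup, κ (σ * τ) = κ σ + κ τ := by
    intro σ hσ τ hτ
    have h1 : σ • κ τ = κ τ := hL _ ((hmemT _).1 (hκT τ hτ)) σ hσ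
    have h2 : σ • κ τ = (σ * τ) • y - σ • y := by
      show σ • (τ • y - y) = _
      rw [smul_sub, mul_smul]
    show (σ * τ) • y - y = κ σ + κ τ
    rw [← h1, h2]
    show _ = σ • y - y + _
    abel
  let _ : Module (ZMod 2) T := AddCommGroup.zmodModule (n := 2) (fun x => Subtype.ext x.2)
  have ht : (⟨κ σ₀, hκT σ₀ hσ₀L⟩ : T) ≠ 0 :=
    fun h => hne (sub_eq_zero.1 (congrArg Subtype.val h))
  obtain ⟨χ, hχ⟩ : ∃ χ : Module.Dual (ZMod 2) T, χ ⟨κ σ₀, hκT σ₀ hσ₀L⟩ ≠ 0 := by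
    by_contra hcon
    push Not at hcon
    exact ht ((Module.forall_dual_apply_eq_zero_iff (ZMod 2) _).1 hcon)
  let χ' : J → ZMod 2 := fun x => if h : x ∈ T then χ ⟨x, h⟩ else 0
  have hχ'mem : ∀ (a : J) (ha : a ∈ T), χ' a = χ ⟨a, ha⟩ := fun a ha => dif_pos ha
  have hχ'add : ∀ a b, a ∈ T → b ∈ T → χ' (a + b) = χ' a + χ' b := by
    intro a b ha hb
    rw [hχ'mem a ha, hχ'mem b hb, hχ'mem _ (T.add_mem ha hb)]
    exact map_add χ ⟨a, ha⟩ ⟨b, hb⟩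
  have hχ'0 : χ' 0 = 0 := by
    rw [hχ'mem 0 T.zero_mem]
    exact map_zero χ
  let H : Subgroup GQ :=
    { carrier := {σ | σ ∈ L.fixingSubgroup ∧ χ' (κ σ) = 0}
      one_mem' := ⟨one_mem _, by rw [hκ1]; exact hχ'0⟩
      mul_mem' := fun {a b} ha hb => ⟨mul_mem ha.1 hb.1, by
        rw [hκadd a ha.1 b hb.1, hχ'add _ _ (hκT a ha.1) (hκT b hb.1), ha.2, hb.2, add_zero]⟩
      inv_mem' := fun {a} ha => ⟨inv_mem ha.1, by
        have h1 := hκadd a⁻¹ (inv_mem ha.1) a ha.1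
        rw [inv_mul_cancel, hκ1] at h1
        have h2 := hχ'add _ _ (hκT a⁻¹ (inv_mem ha.1)) (hκT a ha.1)
        rw [← h1, hχ'0, ha.2, add_zero] at h2
        exact h2.symm⟩ }
  have hmemH : ∀ σ, σ ∈ H ↔ σ ∈ L.fixingSubgroup ∧ χ' (κ σ) = 0 := fun σ => Iff.rfl
  have hfix : ∀ σ ∈ L.fixingSubgroup, σ • y = y → σ ∈ H := by
    intro σ hσ h
    refine (hmemH σ).2 ⟨hσ, ?_⟩
    have : κ σ = 0 := sub_eq_zero.2 h
    rw [this]
    exact hχ'0
  have key : ∀ x z : ZMod 2, x ≠ 0 → z ≠ 0 → x + z = 0 := by decide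
  have hH : IsUnrQuad L S H := by
    refine ⟨fun σ hσ => hσ.1, fun σ hσ τ hτ hσH hτH => ?_, ?_, fun σ hσ hin => ?_⟩
    · refine (hmemH _).2 ⟨mul_mem hσ hτ, ?_⟩
      rw [hκadd σ hσ τ hτ, hχ'add _ _ (hκT σ hσ) (hκT τ hτ)]
      exact key _ _ (fun h => hσH ⟨hσ, h⟩) (fun h => hτH ⟨hτ, h⟩)
    · obtain ⟨M', hM'fin, hM'⟩ := hstab y
      refine ⟨L ⊔ M', IntermediateField.finiteDimensional_sup L M', fun σ hσ => ?_⟩
      exact hfix σ (IntermediateField.fixingSubgroup_antitone le_sup_left hσ)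
        (hM' σ (IntermediateField.fixingSubgroup_antitone le_sup_right hσ))
    · exact hfix σ hσ (hunr σ hin y (hy σ hσ))
  have h1 := ((hmemH σ₀).1 (hM H hH hσ₀)).2
  rw [hχ'mem _ (hκT σ₀ hσ₀L)] at h1
  exact hχ h1

end Fermat.Agent.S17.WMW
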