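import Fermat.Agent.S17.WMW.Defs

/-!
# S17/WMW leaf W2: `J^{G_L} / 2 J^{G_L}` is finite if all halves are defined over one number field `M ⊇ L`

Proof.  `G_M = M.fixingSubgroup` has finite index in `GQ` (it is open in a compact group:
`IntermediateField.fixingSubgroup_isOpen`, `Subgroup.finiteIndex_of_...`/`finite_quotient_of_open...`), so `Q := GQ ⧸ G_M` is finite.
For `x ∈ G := J^{G_L}` choose `y_x` with `2 • y_x = x` and put
`Φ x : Q → J`, `Φ x q = if q.out ∈ G_L then q.out • y_x - y_x else 0`; the values lie in the finite set `J[2]`, so `Φ` has finite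
range.  If `Φ x = Φ x'` then for `σ ∈ G_L`, `σ = q.out * ρ` with `ρ ∈ G_M ≤ G_L` (so `q.out ∈ G_L`) and
`σ • y_x - y_x = q.out • y_x - y_x` by `hhalf`; hence `σ • (y_x - y_x') = y_x - y_x'`, i.e. `y_x - y_x' ∈ G` and `x - x' ∈ 2 G`.
So `G ⧸ 2 G` injects into the range of `Φ`.
-/

set_option autoImplicit false

namespace Fermat.Agent.S17.WMW

theorem Index_isGalois_aux (inst : Algebra ℚ (AlgebraicClosure ℚ)) :
    @IsGalois ℚ _ (AlgebraicClosure ℚ) _ inst := by
  have h : inst = AlgebraicClosure.instAlgebra ℚ := Subsingleton.elim _ _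
  rw [h]
  infer_instance

variable {J : Type*} [AddCommGroup J] [DistribMulAction GQ J]

theorem finiteIndex_of_half
    (hdiv : ∀ x : J, ∃ y : J, 2 • y = x)
    (hfin : {y : J | 2 • y = 0}.Finite)
    (L M : IntermediateField ℚ Kb) [FiniteDimensional ℚ M] (hLM : L ≤ M)
    (hhalf : ∀ y : J, (∀ σ ∈ L.fixingSubgroup, σ • (2 • y) = 2 • y) →
      ∀ σ ∈ M.fixingSubgroup, σ • y = y) :
    (nsmulAddMonoidHom (α := FixedPoints.addSubgroup L.fixingSubgroup J) 2).range.FiniteIndex := by
  classical
  have : IsGalois ℚ Kb := Index_isGalois_aux inferInstance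
  have hMfi : M.fixingSubgroup.FiniteIndex :=
    ⟨by rw [← IntermediateField.finrank_eq_fixingSubgroup_index]; exact Module.finrank_pos.ne'⟩
  have hQ : Finite (L.fixingSubgroup ⧸ (M.fixingSubgroup.subgroupOf L.fixingSubgroup)) :=
    Subgroup.finite_quotient_of_finiteIndex
  have hJ2 : Finite {y : J | 2 • y = 0} := hfin.to_subtype
  choose half hh using hdiv
  have hfix : ∀ (x : FixedPoints.addSubgroup L.fixingSubgroup J) (σ : L.fixingSubgroup),
      (σ : GQ) • (x : J) = x := fun x σ => (FixedPoints.mem_addSubgroup _ _ (x : J)).1 x.2 σ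
  have hval : ∀ (x : FixedPoints.addSubgroup L.fixingSubgroup J) (σ : L.fixingSubgroup),
      2 • ((σ : GQ) • half x - half x) = 0 := by
    intro x σ
    rw [smul_sub, smul_comm (2 : ℕ) (σ : GQ) (half x), hh, hfix x σ, sub_self]
  -- elements of `G_M` fix the halves
  have hM : ∀ (x : FixedPoints.addSubgroup L.fixingSubgroup J), ∀ ρ ∈ M.fixingSubgroup,
      ρ • half x = half x := by
    intro x
    apply hhalf
    intro σ hσ
    rw [hh]
    exact hfix x ⟨σ, hσ⟩
  let Φ : FixedPoints.addSubgroup L.fixingSubgroup J →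
      (L.fixingSubgroup ⧸ (M.fixingSubgroup.subgroupOf L.fixingSubgroup)) → {y : J | 2 • y = 0} :=
    fun x q => ⟨((q.out : L.fixingSubgroup) : GQ) • half x - half x, hval x q.out⟩
  have hΦ : ∀ (x : FixedPoints.addSubgroup L.fixingSubgroup J) (σ : L.fixingSubgroup),
      ((Φ x (QuotientGroup.mk σ) : {y : J | 2 • y = 0}) : J) = (σ : GQ) • half x - half x := by
    intro x σ
    obtain ⟨ρ, hρ⟩ := QuotientGroup.mk_out_eq_mul (M.fixingSubgroup.subgroupOf L.fixingSubgroup) σ
    show (((QuotientGroup.mk σ : L.fixingSubgroup ⧸ _).out : L.fixingSubgroup) : GQ) • half x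
      - half x = _
    rw [hρ, Subgroup.coe_mul, mul_smul, hM x _ (Subgroup.mem_subgroupOf.1 ρ.2)]
  have key : ∀ x x' : FixedPoints.addSubgroup L.fixingSubgroup J, Φ x = Φ x' →
      x - x' ∈ (nsmulAddMonoidHom (α := FixedPoints.addSubgroup L.fixingSubgroup J) 2).range := by
    intro x x' hxx
    have hz : half x - half x' ∈ FixedPoints.addSubgroup L.fixingSubgroup J := by
      rw [FixedPoints.mem_addSubgroup]
      intro σ
      have h1 := hΦ x σ
      have h2 := hΦ x' σ
      rw [hxx, h2] at h1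
      show (σ : GQ) • (half x - half x') = half x - half x'
      rw [smul_sub]
      have h3 : (σ : GQ) • half x = (σ : GQ) • half x' - half x' + half x := by
        rw [h1]; abel
      rw [h3]
      abel
    refine ⟨⟨half x - half x', hz⟩, ?_⟩
    apply Subtype.ext
    show 2 • (half x - half x') = (x : J) - x'
    rw [smul_sub, hh, hh]
  have hfinq : Finite (FixedPoints.addSubgroup L.fixingSubgroup J ⧸
      (nsmulAddMonoidHom (α := FixedPoints.addSubgroup L.fixingSubgroup J) 2).range) := by
    refine Finite.of_injective (fun c => Φ c.out) ?_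
    intro c c' hcc
    rw [← QuotientAddGroup.out_eq' c, ← QuotientAddGroup.out_eq' c', QuotientAddGroup.eq,
      neg_add_eq_sub]
    exact key _ _ hcc.symm
  exact AddSubgroup.finiteIndex_of_finite_quotient

end Fermat.Agent.S17.WMW
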