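import Fermat.Agent.S17.WMW.Kum
import Fermat.Agent.S17.WMW.Half
import Fermat.Agent.S17.WMW.Index

/-!
# S17/WMW: the abstract weak Mordell-Weil theorem
-/

set_option autoImplicit false

namespace Fermat.Agent.S17.WMW

variable {J : Type*} [AddCommGroup J] [DistribMulAction GQ J]

/-- **Weak Mordell-Weil (abstract form).** -/
theorem weak_mordell_weil
    (hstab : ∀ y : J, ∃ M : IntermediateField ℚ Kb, FiniteDimensional ℚ M ∧
      ∀ σ ∈ M.fixingSubgroup, σ • y = y)
    (hdiv : ∀ x : J, ∃ y : J, 2 • y = x)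
    (hfin : {y : J | 2 • y = 0}.Finite)
    (S : Finset ℕ)
    (hunr : ∀ σ : GQ, IsInertiaOutside S σ → ∀ y : J, σ • (2 • y) = 2 • y → σ • y = y)
    (L : IntermediateField ℚ Kb) [FiniteDimensional ℚ L]
    (hL : ∀ y : J, 2 • y = 0 → ∀ σ ∈ L.fixingSubgroup, σ • y = y) :
    (nsmulAddMonoidHom (α := FixedPoints.addSubgroup L.fixingSubgroup J) 2).range.FiniteIndex := by
  have : NumberField L := { to_charZero := inferInstance, to_finiteDimensional := inferInstance }
  obtain ⟨M, hMfin, hLM, hM⟩ := kum L S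
  exact finiteIndex_of_half hdiv hfin L M hLM
    (fun y hy => smul_half_eq hstab S hunr L hL M hM y hy)

/-- a number field over which a given finite set of points is defined. -/
theorem exists_field_fixing
    (hstab : ∀ y : J, ∃ M : IntermediateField ℚ Kb, FiniteDimensional ℚ M ∧
      ∀ σ ∈ M.fixingSubgroup, σ • y = y)
    (T : Set J) (hT : T.Finite) (L₀ : IntermediateField ℚ Kb) [FiniteDimensional ℚ L₀] :
    ∃ L : IntermediateField ℚ Kb, FiniteDimensional ℚ L ∧ L₀ ≤ L ∧
      ∀ y ∈ T, ∀ σ ∈ L.fixingSubgroup, σ • y = y := by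
  induction T, hT using Set.Finite.induction_on with
  | empty => exact ⟨L₀, inferInstance, le_rfl, by simp⟩
  | @insert a s _ _ ih =>
    obtain ⟨L, hfd, hle, hfix⟩ := ih
    obtain ⟨M, hM, hMfix⟩ := hstab a
    refine ⟨L ⊔ M, IntermediateField.finiteDimensional_sup _ _, hle.trans le_sup_left, ?_⟩
    intro y hy σ hσ
    rcases Set.mem_insert_iff.1 hy with rfl | hy
    · exact hMfix σ (IntermediateField.fixingSubgroup_antitone le_sup_right hσ)
    · exact hfix y hy σ (IntermediateField.fixingSubgroup_antitone le_sup_left hσ)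

/-- `J^{GQ}` is finitely generated as soon as `J^{G_L}` is. -/
theorem fg_fixedPoints_of_fg (L : IntermediateField ℚ Kb)
    (h : AddGroup.FG (FixedPoints.addSubgroup L.fixingSubgroup J)) :
    AddGroup.FG (FixedPoints.addSubgroup GQ J) := by
  have h1 : Module.Finite ℤ (FixedPoints.addSubgroup L.fixingSubgroup J) :=
    Module.Finite.iff_addGroup_fg.2 h
  have h2 : IsNoetherian ℤ (FixedPoints.addSubgroup L.fixingSubgroup J) :=
    isNoetherian_of_isNoetherianRing_of_finite ℤ _
  let f : FixedPoints.addSubgroup GQ J →+ FixedPoints.addSubgroup L.fixingSubgroup J :=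
    { toFun := fun x => ⟨x.1, fun σ => x.2 σ.1⟩
      map_zero' := rfl
      map_add' := fun _ _ => rfl }
  have hf : Function.Injective f := fun x y hxy => Subtype.ext (congrArg (fun z => z.1) hxy)
  have h3 : Module.Finite ℤ (FixedPoints.addSubgroup GQ J) :=
    Module.Finite.of_injective f.toIntLinearMap hf
  exact Module.Finite.iff_addGroup_fg.1 h3

end Fermat.Agent.S17.WMW
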