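import Mathlib
import Fermat.Prelude.Def_FLTPrelim_Ramification
import Fermat.Agent.CFT.Basic

/-!
# S17, block WMW (weak Mordell-Weil): definitions

`Kb = AlgebraicClosure ℚ`, `GQ = Gal(Kb/ℚ)`.  For a number field `L ⊆ Kb` and a finite set `S` of
integers, `IsUnrQuad L S H` says that `H` is an open subgroup of `G_L = L.fixingSubgroup` of index
`≤ 2` containing all inertia elements of `G_L` at the primes outside `S`.
-/

set_option autoImplicit false

namespace Fermat.Agent.S17.WMW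

/-- `ℚ̄`. -/
abbrev Kb : Type := AlgebraicClosure ℚ

/-- the absolute Galois group of `ℚ`. -/
abbrev GQ : Type := Kb ≃ₐ[ℚ] Kb

/-- `σ` lies in the inertia group of some valuation subring of `ℚ̄` over a prime `ℓ ∉ S`. -/
def IsInertiaOutside (S : Finset ℕ) (σ : GQ) : Prop :=
  ∃ ℓ : ℕ, ℓ.Prime ∧ ℓ ∉ S ∧ ∃ A : ValuationSubring Kb, A.LiesOverPrime ℓ ∧
    σ ∈ A.inertiaSubgroupIn ℚ

/-- `H` is an open subgroup of index `≤ 2` of `G_L`, unramified outside `S`. -/
structure IsUnrQuad (L : IntermediateField ℚ Kb) (S : Finset ℕ) (H : Subgroup GQ) : Prop where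
  le : H ≤ L.fixingSubgroup
  quad : ∀ σ ∈ L.fixingSubgroup, ∀ τ ∈ L.fixingSubgroup, σ ∉ H → τ ∉ H → σ * τ ∈ H
  isOpen : ∃ M : IntermediateField ℚ Kb, FiniteDimensional ℚ M ∧ M.fixingSubgroup ≤ H
  unr : ∀ σ ∈ L.fixingSubgroup, IsInertiaOutside S σ → σ ∈ H

/-- the place `v` of the number field `N` does not lie over a prime of `S`. -/
def OutsideS {N : Type*} [Field N] [NumberField N] (S : Finset ℕ) (v : CFT.Pl N) : Prop :=
  ∀ ℓ : ℕ, ℓ.Prime → CFT.Over v ℓ → ℓ ∉ S

end Fermat.Agent.S17.WMW
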