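import Fermat.Agent.S17.WMW.RamFin
import Fermat.Agent.CFT.Lift
import Fermat.Agent.CFT.OrdBasic2
import Fermat.Agent.CFT.OrdGal1

/-!
# S17/WMW leaf K2: if inertia outside `S` fixes `√a` then `ord_v a` is even for `v` outside `S`

Proof.  Let `v` be outside `S`, `ℓ` the rational prime below `v` (`ℓ ∉ S`), and suppose `ord_v a` odd.
Let `Ω ⊆ Kb` be a finite Galois extension of `ℚ` containing `L` and `β` (normal closure of `L(β)`),
`w` a prime of `𝓞 Ω` above `v`, `A` a valuation subring of `Kb` above `w` (`CFT.Lift.exists_above`); then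
`A.LiesOverPrime ℓ`.  `exists_inertia_neg` (with `N = L`, `N' = Ω`) gives `s ∈ Gal(Ω/L)` in the inertia group of `w`
with `s β = -β`; `CFT.Lift.lift_inertia` (applied to `s.restrictScalars ℚ`) gives `g ∈ A.inertiaSubgroupIn ℚ`
restricting to `s` on `Ω`.  So `g ∈ L.fixingSubgroup`, `IsInertiaOutside S g`, `g β = -β ≠ β`: contradiction.
-/

set_option autoImplicit false

namespace Fermat.Agent.S17.WMW

open NumberField Fermat.Agent.CFT

/-- abstract version: `N ⊆ N' ⊆ Kb`. -/
theorem even_ord_aux {N N' : Type*} [Field N] [NumberField N] [Field N'] [NumberField N']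
    [Algebra N N'] [IsGalois ℚ N'] [Algebra N' Kb] [Algebra N Kb] [IsScalarTower N N' Kb]
    (S : Finset ℕ) (β : N') (a : N) (ha : a ≠ 0) (hβ : β ^ 2 = algebraMap N N' a)
    (hunr : ∀ σ : GQ, (∀ x : N, σ (algebraMap N Kb x) = algebraMap N Kb x) →
      IsInertiaOutside S σ → σ (algebraMap N' Kb β) = algebraMap N' Kb β)
    (v : Pl N) (hv : OutsideS S v) : (2 : ℤ) ∣ ord v a := by
  by_contra hodd
  have hKb : IsGalois ℚ Kb := Fermat.Agent.Lib.Frobenius.isGalois_algebraicClosure inferInstance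
  have : IsGalois N N' := IsGalois.tower_top_of_isGalois ℚ N N'
  obtain ⟨w, hw⟩ := Fermat.Agent.CFT.exists_above (N' := N') v
  obtain ⟨s, hs, hsβ⟩ := exists_inertia_neg β a hβ v w hw hodd
  obtain ⟨ℓ, hℓ, hvℓ⟩ := exists_prime_over v
  have hℓS : ℓ ∉ S := hv ℓ hℓ hvℓ
  have hwℓ : Over w ℓ := (over_of_above hw ℓ).2 hvℓ
  have : w.asIdeal.IsMaximal := w.isMaximal
  obtain ⟨A, hA⟩ := Fermat.Agent.CFT.Lift.exists_above (L := Kb) w.asIdeal
  have hAℓ : (ℓ : Kb) ∈ A.nonunits := by
    have h1 := (hA (ℓ : 𝓞 N')).1 hwℓ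
    simpa using h1
  obtain ⟨g, hg, hgs⟩ := Fermat.Agent.CFT.Lift.lift_inertia A hℓ hAℓ w.asIdeal hA
    (s.restrictScalars ℚ) hs
  have hgx : ∀ x : N', g (algebraMap N' Kb x) = algebraMap N' Kb (s x) := by
    intro x
    rw [← Fermat.Agent.CFT.Lift.restrict_apply, hgs]
    rfl
  have h1 := hunr g (fun x => by
    rw [IsScalarTower.algebraMap_apply N N' Kb, hgx, s.commutes]) ⟨ℓ, hℓ, hℓS, A, hAℓ, hg⟩
  rw [hgx, hsβ] at h1
  have h2 : -β = β := (algebraMap N' Kb).injective h1
  have h3 : β = 0 := by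
    have : (2 : N') * β = 0 := by linear_combination -h2
    rcases mul_eq_zero.1 this with h | h
    · exact absurd h two_ne_zero
    · exact h
  apply ha
  apply (algebraMap N N').injective
  rw [← hβ, h3]
  simp

theorem even_ord (L : IntermediateField ℚ Kb) [NumberField L] (S : Finset ℕ) (β : Kb) (a : L)
    (ha : a ≠ 0) (hβ : β ^ 2 = (a : Kb))
    (hunr : ∀ σ ∈ L.fixingSubgroup, IsInertiaOutside S σ → σ β = β)
    (v : Pl L) (hv : OutsideS S v) : (2 : ℤ) ∣ ord v a := by
  have hKb : IsGalois ℚ Kb := Fermat.Agent.Lib.Frobenius.isGalois_algebraicClosure inferInstance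
  have hLfin : FiniteDimensional ℚ L := by
    have h := NumberField.to_finiteDimensional (K := L)
    convert h
  have hβint : IsIntegral ℚ β := ((AlgebraicClosure.isAlgebraic ℚ).isAlgebraic β).isIntegral
  have : FiniteDimensional ℚ (IntermediateField.adjoin ℚ {β}) :=
    IntermediateField.adjoin.finiteDimensional hβint
  let E : IntermediateField ℚ Kb := L ⊔ IntermediateField.adjoin ℚ {β}
  have hEfin : FiniteDimensional ℚ E := IntermediateField.finiteDimensional_sup _ _
  let Ω : IntermediateField ℚ Kb := IntermediateField.normalClosure ℚ E Kb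
  have hΩfin' : FiniteDimensional ℚ Ω := normalClosure.is_finiteDimensional ℚ E Kb
  have hΩnormal : Normal ℚ Ω := normalClosure.normal ℚ E Kb
  have hEΩ : E ≤ Ω := IntermediateField.le_normalClosure E
  have hLΩ : L ≤ Ω := le_trans le_sup_left hEΩ
  have hβΩ : β ∈ Ω := hEΩ ((le_sup_right : IntermediateField.adjoin ℚ {β} ≤ E)
    (IntermediateField.mem_adjoin_simple_self ℚ β))
  have halg : (Ω.algebra' : Algebra ℚ Ω) = DivisionRing.toRatAlgebra := Subsingleton.elim _ _
  have hΩgal' : @IsGalois ℚ _ Ω _ Ω.algebra' := ⟨⟩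
  have hΩgal : IsGalois ℚ Ω := halg ▸ hΩgal'
  have hΩfin : @FiniteDimensional ℚ Ω _ _ (@Algebra.toModule ℚ Ω _ _ DivisionRing.toRatAlgebra) :=
    halg ▸ hΩfin'
  have hΩnf : NumberField Ω := { to_charZero := inferInstance, to_finiteDimensional := hΩfin }
  let _ : Algebra L Ω := (IntermediateField.inclusion hLΩ).toRingHom.toAlgebra
  have : IsScalarTower L Ω Kb := IsScalarTower.of_algebraMap_eq (fun x => rfl)
  refine even_ord_aux (N := L) (N' := Ω) S ⟨β, hβΩ⟩ a ha (Subtype.ext hβ) ?_ v hv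
  intro σ hσ hin
  exact hunr σ ((IntermediateField.mem_fixingSubgroup_iff _ σ).2 fun x hx => hσ ⟨x, hx⟩) hin

end Fermat.Agent.S17.WMW
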