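import Fermat.Agent.S17.WMW.Defs
import Fermat.Agent.CFT.GenCl
import Fermat.Agent.CFT.SUnitRankMain

/-!
# S17/WMW leaf K3: finiteness of the `2`-Selmer group `N(S, 2)` of a number field

Proof.  `S₀ = {v | ¬ OutsideS S v}` is finite (finitely many primes of `𝓞 N` contain a given prime number).
`CFT.exists_GenCl` gives a finite `T ⊇ S₀` with `GenCl T`: every `v ∉ T` has `c_v ∈ Nˣ` with `ord_v c_v = 1` and
`ord_{v'} c_v = 0` for `v' ∉ T`, `v' ≠ v`.  Given `a` with even valuations outside `S₀`, the set of `v ∉ T` with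
`ord_v a ≠ 0` is finite; `c := ∏ c_v ^ (ord_v a / 2)`; then `a / c ^ 2 ∈ SU T` (a `T`-unit).  The squares have finite
index in the `T`-units: `CFT.powIndex_sUnits_numberField` (`powIndex (sUnits N T) 2 = gcd * 2 ^ _ ≠ 0`),
`CFT.SU_eq_sUnits`.  Take for `R` a (finite) set of representatives of `SU T / squares`.
-/

set_option autoImplicit false

namespace Fermat.Agent.S17.WMW

open NumberField Fermat.Agent.CFT

theorem Selmer_finite_bad (N : Type*) [Field N] [NumberField N] (S : Finset ℕ) :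
    {v : Pl N | ¬ OutsideS S v}.Finite := by
  have h : {v : Pl N | ¬ OutsideS S v} ⊆ ⋃ ℓ ∈ (S : Set ℕ), {v : Pl N | ℓ.Prime ∧ Over v ℓ} := by
    intro v hv
    simp only [Set.mem_ofPred_eq, OutsideS] at hv
    push Not at hv
    obtain ⟨ℓ, hℓ, hov, hS⟩ := hv
    exact Set.mem_biUnion hS ⟨hℓ, hov⟩
  refine (Set.Finite.biUnion S.finite_toSet fun ℓ _ => ?_).subset h
  by_cases hℓ : ℓ.Prime
  · exact (finite_over ℓ hℓ.ne_zero).subset fun v hv => hv.2
  · exact Set.finite_empty.subset fun v hv => hℓ hv.1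

theorem Selmer_reduce {N : Type*} [Field N] [NumberField N] {T : Set (Pl N)} (hT : GenCl T)
    (a : Nˣ) (h2 : ∀ v, v ∉ T → (2 : ℤ) ∣ ord v (a : N)) :
    ∃ c : Nˣ, a * (c ^ 2)⁻¹ ∈ SU T := by
  classical
  choose! cf hcf1 hcf2 using hT
  set s := (finite_ord_ne_zero a.ne_zero).toFinset.filter (· ∉ T) with hs
  have hsT : ∀ v ∈ s, v ∉ T := fun v hv => (Finset.mem_filter.1 hv).2
  refine ⟨∏ v ∈ s, cf v ^ (ord v (a : N) / 2), ?_⟩
  rw [mem_SU_iff]
  intro v' hv'
  have hc : ord v' ((∏ v ∈ s, cf v ^ (ord v (a : N) / 2) : Nˣ) : N) = ord v' (a : N) / 2 := by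
    rw [Units.coe_prod, ord_prod _ _ _ (fun i _ => Units.ne_zero _)]
    simp only [ord_units_zpow]
    by_cases hv's : v' ∈ s
    · rw [Finset.sum_eq_single v', hcf1 v' hv', mul_one]
      · intro v hv hne
        rw [hcf2 v (hsT v hv) v' hv' hne.symm, mul_zero]
      · intro h
        exact absurd hv's h
    · have h0 : ord v' (a : N) = 0 := by
        by_contra h0
        apply hv's
        rw [hs, Finset.mem_filter, Set.Finite.mem_toFinset]
        exact ⟨h0, hv'⟩
      rw [h0, Int.zero_ediv]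
      refine Finset.sum_eq_zero fun v hv => ?_
      have hne : v' ≠ v := by
        rintro rfl
        exact hv's hv
      rw [hcf2 v (hsT v hv) v' hv' hne, mul_zero]
  rw [Units.val_mul, ord_mul _ a.ne_zero (Units.ne_zero _), Units.val_inv_eq_inv_val, ord_inv,
    Units.val_pow_eq_pow_val, ord_pow, hc]
  obtain ⟨m, hm⟩ := h2 v' hv'
  rw [hm]
  simp

theorem Selmer_index_ne_zero {N : Type*} [Field N] [NumberField N] {T : Set (Pl N)}
    (hT : T.Finite) : (powMonoidHom 2 : SU T →* SU T).range.index ≠ 0 := by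
  have h : powIndex (SU T) 2 ≠ 0 := by
    rw [SUnitRankMain.SU_eq_sUnits T hT, powIndex_sUnits_numberField]
    exact Nat.mul_ne_zero (Nat.gcd_pos_of_pos_right _ (by norm_num)).ne' (by positivity)
  exact h

theorem selmer_finite (N : Type*) [Field N] [NumberField N] (S : Finset ℕ) :
    ∃ R : Finset N, (∀ r ∈ R, r ≠ 0) ∧ ∀ a : N, a ≠ 0 →
      (∀ v : Pl N, OutsideS S v → (2 : ℤ) ∣ ord v a) →
        ∃ r ∈ R, ∃ c : N, c ≠ 0 ∧ a = r * c ^ 2 := by
  classical
  obtain ⟨T, hST, hTfin, hT⟩ := exists_GenCl _ (Selmer_finite_bad N S)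
  set H := (powMonoidHom 2 : SU T →* SU T).range with hH
  have : H.FiniteIndex := ⟨Selmer_index_ne_zero hTfin⟩
  have hfin : Finite (SU T ⧸ H) := Subgroup.finite_quotient_of_finiteIndex
  let f : SU T ⧸ H → N := fun q => (((q.out : SU T) : Nˣ) : N)
  refine ⟨(Set.finite_range f).toFinset, ?_, ?_⟩
  · intro r hr
    rw [Set.Finite.mem_toFinset] at hr
    obtain ⟨q, rfl⟩ := hr
    exact Units.ne_zero _
  · intro a ha h2
    obtain ⟨c, hc⟩ := Selmer_reduce hT (Units.mk0 a ha) (fun v hv => h2 v (by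
      by_contra h
      exact hv (hST h)))
    set u : SU T := ⟨_, hc⟩ with hu
    have h3 : (QuotientGroup.mk u : SU T ⧸ H).out⁻¹ * u ∈ H := by
      rw [← QuotientGroup.eq, QuotientGroup.out_eq']
    obtain ⟨y, hy⟩ := h3
    refine ⟨f (QuotientGroup.mk u), ?_, ((y : Nˣ) : N) * (c : N), ?_, ?_⟩
    · rw [Set.Finite.mem_toFinset]
      exact ⟨_, rfl⟩
    · exact mul_ne_zero (Units.ne_zero _) (Units.ne_zero _)
    · have h4 : u = (QuotientGroup.mk u : SU T ⧸ H).out * y ^ 2 := by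
        rw [powMonoidHom_apply] at hy
        rw [hy, mul_inv_cancel_left]
      have h5 := congrArg (fun z : SU T => ((z : Nˣ) : N)) h4
      simp only [hu, Subgroup.coe_mul, Units.val_mul, Units.val_mk0, Subgroup.coe_pow,
        Units.val_pow_eq_pow_val, Units.val_inv_eq_inv_val] at h5
      have hc0 : (c : N) ≠ 0 := Units.ne_zero _
      show a = (((QuotientGroup.mk u : SU T ⧸ H).out : Nˣ) : N) * _
      rw [mul_pow, ← mul_assoc, ← h5]
      field_simp

end Fermat.Agent.S17.WMW
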