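import Fermat.Agent.S17.WMW.Kummer
import Fermat.Agent.S17.WMW.Ram
import Fermat.Agent.S17.WMW.Selmer

/-!
# S17/WMW: KUM = all quadratic characters of `G_L` unramified outside `S` factor through one number field
-/

set_option autoImplicit false

namespace Fermat.Agent.S17.WMW

open NumberField Fermat.Agent.CFT

/-- **KUM.** -/
theorem kum (L : IntermediateField ℚ Kb) [NumberField L] (S : Finset ℕ) :
    ∃ M : IntermediateField ℚ Kb, FiniteDimensional ℚ M ∧ L ≤ M ∧
      ∀ H : Subgroup GQ, IsUnrQuad L S H → M.fixingSubgroup ≤ H := by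
  classical
  obtain ⟨R, hR0, hR⟩ := selmer_finite L S
  -- the finite set of all square roots of the elements of `R`
  let T : Set Kb := ⋃ r ∈ R, {β : Kb | β ^ 2 = ((r : L) : Kb)}
  have hTfin : T.Finite := by
    refine Set.Finite.biUnion R.finite_toSet fun r _ => ?_
    have hne : (Polynomial.X ^ 2 - Polynomial.C ((r : L) : Kb)) ≠ 0 :=
      Polynomial.X_pow_sub_C_ne_zero (by norm_num) _
    refine ((Polynomial.X ^ 2 - Polynomial.C ((r : L) : Kb)).roots.toFinset.finite_toSet).subset ?_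
    intro β hβ
    simp only [Set.mem_ofPred_eq] at hβ
    simp only [Finset.mem_coe, Multiset.mem_toFinset, Polynomial.mem_roots hne,
      Polynomial.IsRoot.def, Polynomial.eval_sub, Polynomial.eval_pow, Polynomial.eval_X,
      Polynomial.eval_C, hβ, sub_self]
  have hfinT : FiniteDimensional ℚ (IntermediateField.adjoin ℚ T) := by
    have : Finite T := hTfin
    exact IntermediateField.finiteDimensional_adjoin
      (fun x _ => ((AlgebraicClosure.isAlgebraic ℚ).isAlgebraic x).isIntegral)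
  refine ⟨L ⊔ IntermediateField.adjoin ℚ T, IntermediateField.finiteDimensional_sup _ _,
    le_sup_left, fun H hH σ hσ => ?_⟩
  have hσL : σ ∈ L.fixingSubgroup :=
    (IntermediateField.fixingSubgroup_antitone le_sup_left) hσ
  obtain ⟨β, hβ0, hβL, hβ⟩ := exists_sqrt L H hH.le hH.quad hH.isOpen
  rw [hβ σ hσL]
  have ha0 : (⟨β ^ 2, hβL⟩ : L) ≠ 0 := by
    intro h
    exact pow_ne_zero 2 hβ0 (congrArg Subtype.val h)
  obtain ⟨r, hr, c, hc0, hc⟩ := hR ⟨β ^ 2, hβL⟩ ha0 (fun v hv =>
    even_ord L S β ⟨β ^ 2, hβL⟩ ha0 rfl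
      (fun τ hτ hin => (hβ τ hτ).1 (hH.unr τ hτ hin)) v hv)
  have hc' : β ^ 2 = (r : Kb) * (c : Kb) ^ 2 := congrArg Subtype.val hc
  have hcK : (c : Kb) ≠ 0 := fun h => hc0 (Subtype.ext h)
  have hmemT : β / (c : Kb) ∈ T := by
    refine Set.mem_biUnion hr ?_
    show (β / (c : Kb)) ^ 2 = (r : Kb)
    rw [div_pow, hc']
    field_simp
  have hβM : β ∈ L ⊔ IntermediateField.adjoin ℚ T := by
    have h1 : β / (c : Kb) ∈ L ⊔ IntermediateField.adjoin ℚ T :=
      (le_sup_right : IntermediateField.adjoin ℚ T ≤ _) (IntermediateField.subset_adjoin ℚ T hmemT)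
    have h2 : (c : Kb) ∈ L ⊔ IntermediateField.adjoin ℚ T :=
      (le_sup_left : L ≤ _) c.2
    have h3 : β = β / (c : Kb) * (c : Kb) := by field_simp
    rw [h3]
    exact mul_mem h1 h2
  exact (IntermediateField.mem_fixingSubgroup_iff _ σ).1 hσ β hβM

end Fermat.Agent.S17.WMW
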