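import Fermat.Agent.S17.WMW.Defs

/-!
# S17/WMW leaf K1: an open subgroup of index `≤ 2` of `G_L` is the stabiliser of a square root

Proof.  If `H = G_L` take `β = 1`.  Otherwise pick `τ ∈ G_L \ H`.  `H` is closed (it contains the open
subgroup `M.fixingSubgroup`, hence is open, hence closed), so by the infinite Galois correspondence
(`InfiniteGalois.fixingSubgroup_fixedField`) there is `θ` fixed by `H` with `τ θ ≠ θ`.  Put
`β = θ - τ θ ≠ 0`.  By `quad`, `G_L = H ∪ τ H = H ∪ H τ`, `τ * τ ∈ H` and `τ⁻¹ σ τ ∈ H` for `σ ∈ H`.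
Hence `σ β = β` for `σ ∈ H`, `τ β = -β`; so `σ β = -β ≠ β` for `σ ∈ G_L \ H`, and `β ^ 2` is fixed by
`G_L`, i.e. lies in `L` (`InfiniteGalois.fixedField_fixingSubgroup` / `IsGalois.fixedField_fixingSubgroup`).
-/

set_option autoImplicit false

namespace Fermat.Agent.S17.WMW

theorem Kummer_isGalois (inst : Algebra ℚ (AlgebraicClosure ℚ)) :
    @IsGalois ℚ _ (AlgebraicClosure ℚ) _ inst := by
  have h : inst = AlgebraicClosure.instAlgebra ℚ := Subsingleton.elim _ _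
  rw [h]
  infer_instance

theorem exists_sqrt (L : IntermediateField ℚ Kb) (H : Subgroup GQ) (hle : H ≤ L.fixingSubgroup)
    (hquad : ∀ σ ∈ L.fixingSubgroup, ∀ τ ∈ L.fixingSubgroup, σ ∉ H → τ ∉ H → σ * τ ∈ H)
    (hopen : ∃ M : IntermediateField ℚ Kb, FiniteDimensional ℚ M ∧ M.fixingSubgroup ≤ H) :
    ∃ β : Kb, β ≠ 0 ∧ β ^ 2 ∈ L ∧ ∀ σ ∈ L.fixingSubgroup, (σ ∈ H ↔ σ β = β) := by
  by_cases hall : ∀ σ ∈ L.fixingSubgroup, σ ∈ H
  · exact ⟨1, one_ne_zero, by rw [one_pow]; exact one_mem L,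
      fun σ hσ => ⟨fun _ => map_one σ, fun _ => hall σ hσ⟩⟩
  push Not at hall
  obtain ⟨τ, hτL, hτH⟩ := hall
  have hGal : IsGalois ℚ Kb := Kummer_isGalois inferInstance
  obtain ⟨M, hM, hMH⟩ := hopen
  have hHopen : IsOpen (H : Set GQ) := Subgroup.isOpen_mono hMH M.fixingSubgroup_isOpen
  have hHclosed : IsClosed (H : Set GQ) := Subgroup.isClosed_of_isOpen H hHopen
  have hfix : (IntermediateField.fixedField H).fixingSubgroup = H :=
    InfiniteGalois.fixingSubgroup_fixedField (⟨H, hHclosed⟩ : ClosedSubgroup GQ)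
  have hτ' : τ ∉ (IntermediateField.fixedField H).fixingSubgroup := by rwa [hfix]
  rw [IntermediateField.mem_fixingSubgroup_iff] at hτ'
  push Not at hτ'
  obtain ⟨θ, hθ, hτθ⟩ := hτ'
  rw [IntermediateField.mem_fixedField_iff] at hθ
  -- group theory
  have hττ : τ * τ ∈ H := hquad τ hτL τ hτL hτH hτH
  have hconj : ∀ σ ∈ H, τ⁻¹ * σ * τ ∈ H := by
    intro σ hσ
    by_contra hcon
    have hρL : τ⁻¹ * σ * τ ∈ L.fixingSubgroup :=
      mul_mem (mul_mem (inv_mem hτL) (hle hσ)) hτL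
    have h1 := hquad τ hτL _ hρL hτH hcon
    have h2 : τ * (τ⁻¹ * σ * τ) = σ * τ := by group
    rw [h2] at h1
    apply hτH
    have h3 := mul_mem (inv_mem hσ) h1
    rwa [inv_mul_cancel_left] at h3
  set β : Kb := θ - τ θ with hβ
  have hβ0 : β ≠ 0 := by
    rw [hβ, sub_ne_zero]
    exact fun h => hτθ h.symm
  have hHβ : ∀ σ ∈ H, σ β = β := by
    intro σ hσ
    have h1 : σ (τ θ) = τ θ := by
      have h2 := hθ _ (hconj σ hσ)
      have h3 : (τ⁻¹ * σ * τ) θ = τ⁻¹ (σ (τ θ)) := rfl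
      rw [h3] at h2
      have h4 := congrArg τ h2
      have h5 : τ (τ⁻¹ (σ (τ θ))) = σ (τ θ) := AlgEquiv.apply_symm_apply τ _
      rwa [h5] at h4
    rw [hβ, map_sub, hθ σ hσ, h1]
  have hτβ : τ β = -β := by
    have h1 : τ (τ θ) = θ := hθ _ hττ
    rw [hβ, map_sub, h1]
    ring
  have hnHβ : ∀ σ ∈ L.fixingSubgroup, σ ∉ H → σ β = -β := by
    intro σ hσL hσH
    have h1 := hHβ _ (hquad σ hσL τ hτL hσH hτH)
    have h2 : (σ * τ) β = σ (τ β) := rfl
    rw [h2, hτβ, map_neg] at h1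
    linear_combination -h1
  refine ⟨β, hβ0, ?_, fun σ hσL => ⟨hHβ σ, fun h => ?_⟩⟩
  · rw [← InfiniteGalois.fixedField_fixingSubgroup L, IntermediateField.mem_fixedField_iff]
    intro σ hσL
    by_cases hσH : σ ∈ H
    · rw [map_pow, hHβ σ hσH]
    · rw [map_pow, hnHβ σ hσL hσH, neg_sq]
  · by_contra hσH
    have h1 := hnHβ σ hσL hσH
    rw [h] at h1
    have h2 : (2 : Kb) * β = 0 := by linear_combination h1
    rcases mul_eq_zero.1 h2 with h3 | h3
    · exact two_ne_zero h3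
    · exact hβ0 h3

end Fermat.Agent.S17.WMW
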