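import Fermat.Agent.S17.WMW.Defs
import Fermat.Agent.CFT.OrdGal2
import Fermat.Agent.CFT.PlaceLemmas

/-!
# S17/WMW leaf K2a: a square root of an element of odd valuation is moved by inertia (finite level)

`N'/N` a Galois extension of number fields, `β ∈ N'`, `β ^ 2 = a ∈ N`, `w | v`, `ord_v a` odd.
Then some `σ` in the inertia group of `w` satisfies `σ β = -β`.

Proof (inertia field).  Let `I` be the inertia group of `w` in `Gal(N'/N)`, and suppose that every
`σ ∈ I` fixes `β`.  Then `β ∈ T := N'^I`.  Let `u = w ∩ 𝓞 T`.  `e(w/v) = |I|`, and the same for `N'/T`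
(Galois group `I`, inertia group of `w` = everything) gives `e(w/u) = |I|`.  So
`ord_v a = ord_u a = 2 ord_u β`, contradiction.
-/

set_option autoImplicit false

namespace Fermat.Agent.S17.WMW

open NumberField Fermat.Agent.CFT IsDedekindDomain
open scoped Pointwise

theorem card_inertia_eq {N N' : Type*} [Field N] [NumberField N] [Field N'] [NumberField N']
    [Algebra N N'] [IsGalois N N'] {w : Pl N'} {v : Pl N} (h : Above w v) :
    Nat.card (w.asIdeal.inertia (N' ≃ₐ[N] N')) = Ideal.ramificationIdx' v.asIdeal w.asIdeal := by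
  have : w.asIdeal.LiesOver v.asIdeal := h
  have h1 := Ideal.card_inertia_eq_ramificationIdxIn (G := N' ≃ₐ[N] N') v.asIdeal w.asIdeal
  rw [Ideal.ramificationIdxIn_eq_ramificationIdx v.asIdeal w.asIdeal (N' ≃ₐ[N] N'),
    ← Ideal.ramificationIdx'_eq_ramificationIdx v.asIdeal w.asIdeal v.ne_bot] at h1
  exact h1

theorem exists_inertia_neg {N N' : Type*} [Field N] [NumberField N] [Field N'] [NumberField N']
    [Algebra N N'] [IsGalois N N'] (β : N') (a : N) (hβ : β ^ 2 = algebraMap N N' a)
    (v : Pl N) (w : Pl N') (hw : Above w v) (hodd : ¬ (2 : ℤ) ∣ ord v a) :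
    ∃ σ : N' ≃ₐ[N] N', (∀ x : 𝓞 N', σ • x - x ∈ w.asIdeal) ∧ σ β = -β := by
  classical
  by_contra hcon
  push Not at hcon
  set I : Subgroup (N' ≃ₐ[N] N') := w.asIdeal.inertia (N' ≃ₐ[N] N') with hI
  -- every element of the inertia group fixes `β`
  have hfix : ∀ σ ∈ I, σ β = β := by
    intro σ hσ
    have h1 : (σ β) ^ 2 = β ^ 2 := by rw [← map_pow, hβ, σ.commutes]
    rcases sq_eq_sq_iff_eq_or_eq_neg.1 h1 with h | h
    · exact h
    · exact absurd h (hcon σ hσ)
  let T : IntermediateField N N' := IntermediateField.fixedField I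
  have hβT : β ∈ T := by
    intro σ
    exact hfix σ.1 σ.2
  obtain ⟨u, hwu⟩ := Fermat.Agent.CFT.exists_below (N := T) w
  have htop : w.asIdeal.inertia (N' ≃ₐ[T] N') = ⊤ := by
    rw [eq_top_iff]
    intro τ _
    have h1 : τ.restrictScalars N ∈ T.fixingSubgroup := by
      rw [IntermediateField.mem_fixingSubgroup_iff]
      intro x hx
      exact τ.commutes ⟨x, hx⟩
    rw [IntermediateField.fixingSubgroup_fixedField] at h1
    exact h1
  have he1 : Ideal.ramificationIdx' u.asIdeal w.asIdeal = Nat.card I := by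
    rw [← card_inertia_eq hwu, htop, Nat.card_eq_fintype_card, ← Nat.card_eq_fintype_card,
      Subgroup.card_top, IsGalois.card_aut_eq_finrank,
      IntermediateField.finrank_fixedField_eq_card, Nat.card_eq_fintype_card]
  have he2 : Ideal.ramificationIdx' v.asIdeal w.asIdeal = Nat.card I := (card_inertia_eq hw).symm
  have hpos : 0 < Nat.card I := he2 ▸ ramificationIdx_pos hw
  have h3 : ord w (algebraMap N N' a) = (Nat.card I : ℤ) * ord v a := by
    rw [ord_algebraMap hw, he2]
  have h4 : ord w (algebraMap N N' a) = (Nat.card I : ℤ) * ord u (algebraMap N T a) := by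
    rw [IsScalarTower.algebraMap_apply N T N', ord_algebraMap hwu, he1]
  have h5 : ord u (algebraMap N T a) = ord v a := by
    have : (Nat.card I : ℤ) ≠ 0 := by exact_mod_cast hpos.ne'
    exact mul_left_cancel₀ this (h4.symm.trans h3)
  apply hodd
  rw [← h5]
  have h6 : algebraMap N T a = (⟨β, hβT⟩ : T) ^ 2 := by
    apply Subtype.ext
    show algebraMap N N' a = β ^ 2
    exact hβ.symm
  rw [h6, Fermat.Agent.CFT.ord_pow]
  exact ⟨_, by push_cast; ring⟩

end Fermat.Agent.S17.WMW
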